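/-
S15 (row L3-ODD), local brick (MULT-CONN): on the connected component of a `P`-order with an
inertia-equivariant basis, inertia acts "through the cyclotomic character" as soon as the
connected component has an inertia-stable chain with steps of order `p`.

`P` a valuation subring of `ℚ̄` over the prime `p` (ANY `p`, including `2`), `I` its inertia
group, `B` a `P`-order (`Lib/FinFlat`) on the finite abelian group `V` with a `Γ`-equivariant
basis, `I ≤ Γ`, `V⁰ = hB.conn`.

* `Good P B X` : the sums `∑_{x ∈ X} f x`, `f ∈ B`, are divisible by `|X|` in `P` (the averages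
  over the subgroup `X` are integral);
* `good_step` : if `X ≤ Y ≤ V⁰`, `Y = X + ℤ y₀` with `p y₀ ∈ X`, `Y` inertia-stable, then
  `Good X → Good Y`.  [For an equivariant `g ∈ B` the sum `S` of the `X`-averaged function over
  the `p` classes of `Y / X` is inertia-fixed and lies in the maximal ideal, hence in `p P`
  ([UNR]).]
* `good_conn_of_flag` : `Good V⁰` from an inertia-stable flag of `V` with cyclic steps of order
  dividing `p`;
* `addChar_act_eq_of_mem_conn` : `Good V⁰` implies `ψ (σ v) = σ (ψ v)` for every additive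
  character `ψ`, `σ ∈ I`, `v ∈ V⁰`;
* `act_eq_nsmul_of_mem_conn` : hence `σ v = a • v` if `σ` raises the roots of unity to the
  power `a`.
-/
import Mathlib
import Fermat.Agent.Lib.FinFlat.Mult

set_option autoImplicit false
set_option linter.style.haveILetI false
set_option linter.unusedSectionVars false

namespace Fermat.Agent.S15P.Loc65.MultConn

open Fermat.Agent.Lib.FinFlat Fermat.Agent.PT.Levels

local notation "Qb" => AlgebraicClosure ℚ
local notation "GQ" => (AlgebraicClosure ℚ ≃ₐ[ℚ] AlgebraicClosure ℚ)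

noncomputable section

variable {V : Type} [AddCommGroup V]

/-! ### Sums over a subgroup -/

/-- The sum of a function over a subgroup. -/
def sumOn (X : AddSubgroup V) (f : V → Qb) : Qb := ∑ᶠ x : X, f x

theorem sumOn_eq (X : AddSubgroup V) [Fintype X] (f : V → Qb) : sumOn X f = ∑ x : X, f x :=
  finsum_eq_sum_of_fintype _

theorem sumOn_bot (f : V → Qb) : sumOn (⊥ : AddSubgroup V) f = f 0 := by
  rw [sumOn, finsum_unique]
  rfl

variable [Finite V]

theorem sumOn_add (X : AddSubgroup V) (f g : V → Qb) :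
    sumOn X (fun v => f v + g v) = sumOn X f + sumOn X g := by
  letI : Fintype X := Fintype.ofFinite X
  simp only [sumOn_eq, Finset.sum_add_distrib]

theorem sumOn_sub (X : AddSubgroup V) (f g : V → Qb) :
    sumOn X (fun v => f v - g v) = sumOn X f - sumOn X g := by
  letI : Fintype X := Fintype.ofFinite X
  simp only [sumOn_eq, Finset.sum_sub_distrib]

theorem sumOn_mul_left (X : AddSubgroup V) (c : Qb) (f : V → Qb) :
    sumOn X (fun v => c * f v) = c * sumOn X f := by
  letI : Fintype X := Fintype.ofFinite X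
  simp only [sumOn_eq, Finset.mul_sum]

theorem sumOn_finset_sum {ι : Type*} (s : Finset ι) (X : AddSubgroup V) (f : ι → V → Qb) :
    sumOn X (fun v => ∑ i ∈ s, f i v) = ∑ i ∈ s, sumOn X (f i) := by
  letI : Fintype X := Fintype.ofFinite X
  simp only [sumOn_eq]
  exact Finset.sum_comm

theorem sumOn_map (σ : GQ) (X : AddSubgroup V) (f : V → Qb) :
    σ (sumOn X f) = sumOn X (fun v => σ (f v)) := by
  letI : Fintype X := Fintype.ofFinite X
  simp only [sumOn_eq, map_sum]

theorem sumOn_one (X : AddSubgroup V) : sumOn X (fun _ => (1 : Qb)) = (Nat.card X : Qb) := by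
  letI : Fintype X := Fintype.ofFinite X
  rw [sumOn_eq, Finset.sum_const, Finset.card_univ, nsmul_eq_mul, mul_one,
    Nat.card_eq_fintype_card]

theorem sumOn_congr (X : AddSubgroup V) {f g : V → Qb} (h : ∀ v ∈ X, f v = g v) :
    sumOn X f = sumOn X g := by
  letI : Fintype X := Fintype.ofFinite X
  simp only [sumOn_eq]
  exact Finset.sum_congr rfl fun x _ => h x x.2

theorem sumOn_translate (X : AddSubgroup V) (f : V → Qb) {x₀ : V} (hx₀ : x₀ ∈ X) :
    sumOn X (fun v => f (v + x₀)) = sumOn X f := by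
  letI : Fintype X := Fintype.ofFinite X
  simp only [sumOn_eq]
  exact Fintype.sum_equiv (Equiv.addRight (⟨x₀, hx₀⟩ : X)) _ _ (fun x => rfl)

theorem sumOn_comp (X : AddSubgroup V) (f : V → Qb) (e : V → V) (he : ∀ v ∈ X, e v ∈ X)
    (hinj : ∀ v ∈ X, ∀ w ∈ X, e v = e w → v = w) :
    sumOn X (fun v => f (e v)) = sumOn X f := by
  letI : Fintype X := Fintype.ofFinite X
  simp only [sumOn_eq]
  let e' : X → X := fun x => ⟨e x, he x x.2⟩
  have hinj' : Function.Injective e' := fun x y h =>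
    Subtype.ext (hinj x x.2 y y.2 (congrArg Subtype.val h))
  have hbij : Function.Bijective e' := Finite.injective_iff_bijective.mp hinj'
  exact Function.Bijective.sum_comp hbij (fun x : X => f x)

/-- Decomposition of the sum over `Y = X + ℤ y₀` along the `p` classes modulo `X`. -/
theorem sumOn_step {p : ℕ} (hp : p.Prime) {X Y : AddSubgroup V} (hXY : X ≤ Y) {y₀ : V}
    (hy₀ : y₀ ∈ Y) (hy₀X : y₀ ∉ X) (hpy : p • y₀ ∈ X)
    (hgen : ∀ y ∈ Y, ∃ i < p, y - i • y₀ ∈ X) (f : V → Qb) :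
    sumOn Y f = ∑ i ∈ Finset.range p, sumOn X (fun x => f (x + i • y₀)) := by
  classical
  letI : Fintype X := Fintype.ofFinite X
  letI : Fintype Y := Fintype.ofFinite Y
  simp only [sumOn_eq]
  let φ : X × Fin p → Y := fun a =>
    ⟨(a.1 : V) + (a.2 : ℕ) • y₀, Y.add_mem (hXY a.1.2) (Y.nsmul_mem hy₀ _)⟩
  have hsurj : Function.Surjective φ := by
    rintro ⟨y, hy⟩
    obtain ⟨i, hi, hx⟩ := hgen y hy
    refine ⟨(⟨y - i • y₀, hx⟩, ⟨i, hi⟩), Subtype.ext ?_⟩
    show y - i • y₀ + i • y₀ = y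
    rw [sub_add_cancel]
  have key : ∀ a b : ℕ, a < p → b < p → a ≤ b → ∀ u u' : V, u ∈ X → u' ∈ X →
      u + a • y₀ = u' + b • y₀ → a = b := by
    intro a b _ hb hab u u' hu hu' e
    by_contra hne
    have hlt : a < b := lt_of_le_of_ne hab hne
    have hk : (b - a) • y₀ ∈ X := by
      have h1 : b • y₀ = (b - a) • y₀ + a • y₀ := by
        rw [← add_nsmul, Nat.sub_add_cancel hab]
      have h2 : (b - a) • y₀ = u - u' := by
        rw [h1, ← add_assoc] at e
        have h3 : u = u' + (b - a) • y₀ := add_right_cancel e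
        rw [h3]
        abel
      rw [h2]
      exact X.sub_mem hu hu'
    have hcop : IsCoprime (((b - a : ℕ) : ℤ)) ((p : ℕ) : ℤ) := by
      rw [Nat.isCoprime_iff_coprime]
      apply Nat.Coprime.symm
      rw [Nat.Prime.coprime_iff_not_dvd hp]
      intro hd
      have := Nat.le_of_dvd (Nat.sub_pos_of_lt hlt) hd
      omega
    obtain ⟨s, t, hst⟩ := hcop
    have h4 : y₀ = s • ((b - a) • y₀) + t • (p • y₀) := by
      rw [← natCast_zsmul y₀ (b - a), ← natCast_zsmul y₀ p, smul_smul, smul_smul, ← add_smul, hst,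
        one_smul]
    apply hy₀X
    rw [h4]
    exact X.add_mem (X.zsmul_mem hk s) (X.zsmul_mem hpy t)
  have hinj : Function.Injective φ := by
    rintro ⟨x, i⟩ ⟨x', i'⟩ h
    have h1 : (x : V) + (i : ℕ) • y₀ = (x' : V) + (i' : ℕ) • y₀ := congrArg Subtype.val h
    have h2 : (i : ℕ) = (i' : ℕ) := by
      rcases le_total (i : ℕ) (i' : ℕ) with hle | hle
      · exact key i i' i.2 i'.2 hle x x' x.2 x'.2 h1
      · exact (key i' i i'.2 i.2 hle x' x x'.2 x.2 h1.symm).symm
    have h3 : i = i' := Fin.ext h2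
    subst h3
    have h4 : (x : V) = (x' : V) := add_right_cancel h1
    rw [Subtype.ext h4]
  have hbij : Function.Bijective φ := ⟨hinj, hsurj⟩
  rw [← Function.Bijective.sum_comp hbij (fun y : Y => f y), Fintype.sum_prod_type,
    Finset.sum_comm, ← Fin.sum_univ_eq_sum_range (fun i => ∑ x : X, f ((x : V) + i • y₀)) p]

/-! ### Integral averages -/

variable {P : ValuationSubring Qb} {Γ : Subgroup GQ} {act : GQ → V → V}
  {B : Subalgebra P (V → Qb)}

/-- The averages of the elements of the order over the subgroup `X` are integral. -/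
def Good (P : ValuationSubring Qb) (B : Subalgebra P (V → Qb)) (X : AddSubgroup V) : Prop :=
  ∀ f ∈ B, ∃ t ∈ P, sumOn X f = (Nat.card X : Qb) * t

theorem good_bot (hB : IsPOrder P Γ act B) : Good P B (⊥ : AddSubgroup V) := by
  intro f hf
  refine ⟨f 0, hB.integral f hf 0, ?_⟩
  rw [sumOn_bot, AddSubgroup.card_bot, Nat.cast_one, one_mul]

theorem card_ne_zero (X : AddSubgroup V) : (Nat.card X : Qb) ≠ 0 :=
  Nat.cast_ne_zero.mpr Nat.card_pos.ne'

theorem apply_mem_nonunits_of_inertia {σ : GQ} (hσ : σ ∈ P.inertiaSubgroupIn ℚ) {x : Qb}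
    (hx : x ∈ P.nonunits) : σ x ∈ P.nonunits := by
  have h1 : σ x - x ∈ P.nonunits :=
    ((mem_inertiaSubgroupIn_iff P σ).1 hσ).2 x (mem_of_mem_nonunits hx)
  have h2 : σ x = (σ x - x) + x := by ring
  rw [h2]
  exact nonunits_add_mem h1 hx

/-- The induction step. -/
theorem good_step {p : ℕ} (hp : p.Prime) (hP : P.LiesOverPrime p) (hB : IsPOrder P Γ act B)
    (hI : P.inertiaSubgroupIn ℚ ≤ Γ) {X Y : AddSubgroup V} (hXY : X ≤ Y) (hYc : Y ≤ hB.conn)
    (hYst : ∀ σ ∈ P.inertiaSubgroupIn ℚ, ∀ v ∈ Y, act σ v ∈ Y)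
    (hYinj : ∀ σ ∈ P.inertiaSubgroupIn ℚ, ∀ v ∈ Y, ∀ w ∈ Y, act σ v = act σ w → v = w)
    {y₀ : V} (hy₀ : y₀ ∈ Y) (hy₀X : y₀ ∉ X) (hpy : p • y₀ ∈ X)
    (hgen : ∀ y ∈ Y, ∃ i < p, y - i • y₀ ∈ X) (hX : Good P B X) : Good P B Y := by
  classical
  have hcard : (Nat.card Y : Qb) = (p : Qb) * (Nat.card X : Qb) := by
    have h := sumOn_step hp hXY hy₀ hy₀X hpy hgen (fun _ => (1 : Qb))
    rw [sumOn_one] at h
    rw [h]
    simp only [sumOn_one, Finset.sum_const, Finset.card_range, nsmul_eq_mul]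
  -- the equivariant case
  have heq : ∀ g ∈ B, Equivar Γ act g → ∃ t ∈ P, sumOn Y g = (Nat.card Y : Qb) * t := by
    intro g hg hge
    obtain ⟨n, a, h, ha, hh, hgah⟩ := hB.comul g hg
    have hX' : ∀ i, ∃ t ∈ P, sumOn X (h i) = (Nat.card X : Qb) * t := fun i => hX (h i) (hh i)
    choose t ht hts using hX'
    let G' : V → Qb := fun v => ∑ i, t i * a i v
    have hG'B : G' ∈ B := by
      have : G' = ∑ i, (fun v => t i * a i v) := by
        funext v
        rw [Finset.sum_apply]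
      rw [this]
      exact B.sum_mem fun i _ => const_mul_mem (ht i) (ha i)
    have hcls : ∀ w : V, sumOn X (fun x => g (x + w)) = (Nat.card X : Qb) * G' w := by
      intro w
      have h1 : (fun x => g (x + w)) = fun x => ∑ i, a i w * h i x := by
        funext x
        rw [add_comm, hgah]
      rw [h1, sumOn_finset_sum, Finset.mul_sum]
      refine Finset.sum_congr rfl fun i _ => ?_
      rw [sumOn_mul_left, hts i]
      ring
    set S' : Qb := ∑ i ∈ Finset.range p, G' (i • y₀) with hS'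
    have hT : sumOn Y g = (Nat.card X : Qb) * S' := by
      rw [sumOn_step hp hXY hy₀ hy₀X hpy hgen g, hS', Finset.mul_sum]
      exact Finset.sum_congr rfl fun i _ => hcls (i • y₀)
    -- `S'` lies in the maximal ideal
    have hS'm : S' ∈ P.nonunits := by
      have e : S' = (∑ i ∈ Finset.range p, (G' (i • y₀) - G' 0)) + (p : Qb) * G' 0 := by
        rw [hS', Finset.sum_sub_distrib, Finset.sum_const, Finset.card_range, nsmul_eq_mul]
        ring
      rw [e]
      refine nonunits_add_mem (nonunits_sum_mem _ _ fun i _ => ?_)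
        (nonunits_mul_mem_right hP (hB.integral G' hG'B 0))
      apply hB.sub_mem_nonunits_of_mem_conn hG'B
      rw [sub_zero]
      exact hYc (Y.nsmul_mem hy₀ i)
    -- `S'` is fixed by inertia
    have hS'fix : ∀ σ ∈ P.inertiaSubgroupIn ℚ, σ S' = S' := by
      intro σ hσ
      have h1 : σ (sumOn Y g) = sumOn Y g := by
        rw [sumOn_map]
        have h2 : (fun v => σ (g v)) = fun v => g (act σ v) := by
          funext v
          exact (hge σ (hI hσ) v).symm
        rw [h2]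
        exact sumOn_comp Y g (act σ) (hYst σ hσ) (hYinj σ hσ)
      rw [hT, map_mul, map_natCast] at h1
      exact mul_left_cancel₀ (card_ne_zero X) h1
    obtain ⟨t', ht', hSt'⟩ := exists_eq_mul_of_inertia_fixed hp P hP hS'fix hS'm
    refine ⟨t', ht', ?_⟩
    rw [hT, hSt', hcard]
    ring
  -- the general case
  intro f hf
  obtain ⟨n, c, g, hg, hge, rfl⟩ := hB.exists_eq_sum hf
  have h1 : ∀ i, ∃ t ∈ P, sumOn Y (g i) = (Nat.card Y : Qb) * t := fun i =>
    heq (g i) (hg i) (hge i)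
  choose t ht hts using h1
  refine ⟨∑ i, (c i : Qb) * t i, P.toSubring.sum_mem fun i _ => P.mul_mem _ _ (c i).2 (ht i), ?_⟩
  have h2 : sumOn Y (∑ i, (c i : Qb) • g i) = ∑ i, (c i : Qb) * sumOn Y (g i) := by
    have h3 : (∑ i, (c i : Qb) • g i : V → Qb) = fun v => ∑ i, (c i : Qb) * g i v := by
      funext v
      rw [Finset.sum_apply]
      rfl
    rw [h3, sumOn_finset_sum]
    exact Finset.sum_congr rfl fun i _ => sumOn_mul_left Y _ _
  rw [h2, Finset.mul_sum]
  refine Finset.sum_congr rfl fun i _ => ?_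
  rw [hts i]
  ring

/-- **Integral averages on the connected component**, from an inertia-stable flag with cyclic
steps of order dividing `p`. -/
theorem good_conn_of_flag {p : ℕ} (hp : p.Prime) (hP : P.LiesOverPrime p)
    (hB : IsPOrder P Γ act B) (hI : P.inertiaSubgroupIn ℚ ≤ Γ)
    (hadd : ∀ σ ∈ P.inertiaSubgroupIn ℚ, ∀ v w, act σ (v + w) = act σ v + act σ w)
    (hinj : ∀ σ ∈ P.inertiaSubgroupIn ℚ, Function.Injective (act σ))
    (n : ℕ) (F : ℕ → AddSubgroup V) (hF0 : F 0 = ⊥) (hFn : hB.conn ≤ F n)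
    (hmono : ∀ j < n, F j ≤ F (j + 1))
    (hpF : ∀ j < n, ∀ y ∈ F (j + 1), p • y ∈ F j)
    (hcyc : ∀ j < n, ∀ y₀ ∈ F (j + 1), y₀ ∉ F j → ∀ y ∈ F (j + 1), ∃ i < p, y - i • y₀ ∈ F j)
    (hst : ∀ j ≤ n, ∀ σ ∈ P.inertiaSubgroupIn ℚ, ∀ v ∈ F j, act σ v ∈ F j) :
    Good P B hB.conn := by
  have hzero : ∀ σ ∈ P.inertiaSubgroupIn ℚ, act σ 0 = 0 := by
    intro σ hσ
    have h := hadd σ hσ 0 0
    rw [add_zero] at h
    exact left_eq_add.mp h
  have hconn : ∀ σ ∈ P.inertiaSubgroupIn ℚ, ∀ v ∈ hB.conn, act σ v ∈ hB.conn := by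
    intro σ hσ v hv
    exact hB.act_mem_conn (hI hσ) (fun x hx => apply_mem_nonunits_of_inertia hσ hx)
      (hzero σ hσ) hv
  have key : ∀ j ≤ n, Good P B (F j ⊓ hB.conn) := by
    intro j
    induction j with
    | zero =>
      intro _
      rw [hF0, bot_inf_eq]
      exact good_bot hB
    | succ j ih =>
      intro hj
      have hjn : j < n := hj
      have hX := ih hjn.le
      by_cases hle : F (j + 1) ⊓ hB.conn ≤ F j ⊓ hB.conn
      · have he : F (j + 1) ⊓ hB.conn = F j ⊓ hB.conn :=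
          le_antisymm hle (inf_le_inf_right _ (hmono j hjn))
        rw [he]
        exact hX
      · obtain ⟨y₀, hy₀, hy₀X⟩ := SetLike.not_le_iff_exists.mp hle
        have hy₀F : y₀ ∈ F (j + 1) := (AddSubgroup.mem_inf.mp hy₀).1
        have hy₀c : y₀ ∈ hB.conn := (AddSubgroup.mem_inf.mp hy₀).2
        have hy₀Fj : y₀ ∉ F j := fun h => hy₀X (AddSubgroup.mem_inf.mpr ⟨h, hy₀c⟩)
        refine good_step hp hP hB hI (inf_le_inf_right _ (hmono j hjn)) inf_le_right ?_ ?_ hy₀
          hy₀X ?_ ?_ hX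
        · intro σ hσ v hv
          exact AddSubgroup.mem_inf.mpr ⟨hst (j + 1) hj σ hσ v (AddSubgroup.mem_inf.mp hv).1,
            hconn σ hσ v (AddSubgroup.mem_inf.mp hv).2⟩
        · intro σ hσ v _ w _ h
          exact hinj σ hσ h
        · exact AddSubgroup.mem_inf.mpr ⟨hpF j hjn y₀ hy₀F, hB.conn.nsmul_mem hy₀c p⟩
        · intro y hy
          obtain ⟨i, hi, hx⟩ := hcyc j hjn y₀ hy₀F hy₀Fj y (AddSubgroup.mem_inf.mp hy).1
          exact ⟨i, hi, AddSubgroup.mem_inf.mpr ⟨hx, hB.conn.sub_mem (AddSubgroup.mem_inf.mp hy).2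
            (hB.conn.nsmul_mem hy₀c i)⟩⟩
  have h := key n le_rfl
  rwa [inf_eq_right.mpr hFn] at h

/-! ### Inertia acts through the cyclotomic character on the connected component -/

/-- **(MULT-CONN).** If the averages over the connected component are integral, then
`ψ (σ v) = σ (ψ v)` for every additive character `ψ`, every `σ` in the inertia group and every
`v` in the connected component. -/
theorem addChar_act_eq_of_mem_conn (hB : IsPOrder P Γ act B)
    (hI : P.inertiaSubgroupIn ℚ ≤ Γ) (hgood : Good P B hB.conn)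
    (hadd : ∀ σ ∈ P.inertiaSubgroupIn ℚ, ∀ v w, act σ (v + w) = act σ v + act σ w)
    (σ : GQ) (hσ : σ ∈ P.inertiaSubgroupIn ℚ) (ψ : AddChar V Qb) {v : V} (hv : v ∈ hB.conn) :
    ψ (act σ v) = σ (ψ v) := by
  classical
  have hτ : σ⁻¹ ∈ P.inertiaSubgroupIn ℚ := inv_mem hσ
  have hτσ : ∀ x : Qb, σ⁻¹ (σ x) = x := fun x => by
    show (σ⁻¹ * σ) x = x
    rw [inv_mul_cancel]
    rfl
  have hστ : ∀ x : Qb, σ (σ⁻¹ x) = x := fun x => by
    show (σ * σ⁻¹) x = x
    rw [mul_inv_cancel]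
    rfl
  set ψ₁ : V → Qb := fun w => σ⁻¹ (ψ (act σ w)) with hψ₁
  suffices h : ψ₁ v = ψ v by
    have h2 : σ (ψ₁ v) = ψ (act σ v) := hστ _
    rw [← h2, h]
  by_contra hne
  -- expansion of `ψ` in equivariant elements
  obtain ⟨n, c, g, hg, hge, hsum⟩ := hB.exists_eq_sum (hB.addChar_mem' ψ)
  have hψw : ∀ w, ψ w = ∑ i, (c i : Qb) * g i w := by
    intro w
    have := congrFun hsum w
    rw [Finset.sum_apply] at this
    exact this
  have hψ₁w : ∀ w, ψ₁ w = ∑ i, σ⁻¹ (c i : Qb) * g i w := by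
    intro w
    rw [hψ₁]
    show σ⁻¹ (ψ (act σ w)) = _
    rw [hψw, map_sum]
    refine Finset.sum_congr rfl fun i _ => ?_
    rw [map_mul, hge i σ (hI hσ) w, hτσ]
  -- the averaging functional
  have hinvB : ((ψ⁻¹ : AddChar V Qb) : V → Qb) ∈ B := hB.addChar_mem' ψ⁻¹
  have hL : ∀ i, ∃ t ∈ P, sumOn hB.conn (fun w => (ψ⁻¹ : AddChar V Qb) w * g i w) =
      (Nat.card hB.conn : Qb) * t := fun i => hgood _ (B.mul_mem hinvB (hg i))
  choose t ht hts using hL
  -- `L(ψ₁) - L(ψ)`
  have hdiff : sumOn hB.conn (fun w => (ψ⁻¹ : AddChar V Qb) w * ψ₁ w) -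
      sumOn hB.conn (fun w => (ψ⁻¹ : AddChar V Qb) w * ψ w) =
      (Nat.card hB.conn : Qb) * ∑ i, (σ⁻¹ (c i : Qb) - (c i : Qb)) * t i := by
    rw [← sumOn_sub]
    have h1 : (fun w => (ψ⁻¹ : AddChar V Qb) w * ψ₁ w - (ψ⁻¹ : AddChar V Qb) w * ψ w) =
        fun w => ∑ i, (σ⁻¹ (c i : Qb) - (c i : Qb)) * ((ψ⁻¹ : AddChar V Qb) w * g i w) := by
      funext w
      rw [hψ₁w, hψw, ← mul_sub, ← Finset.sum_sub_distrib, Finset.mul_sum]
      exact Finset.sum_congr rfl fun i _ => by ring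
    rw [h1, sumOn_finset_sum, Finset.mul_sum]
    refine Finset.sum_congr rfl fun i _ => ?_
    rw [sumOn_mul_left, hts i]
    ring
  -- `L(ψ) = |V⁰|`
  have hLψ : sumOn hB.conn (fun w => (ψ⁻¹ : AddChar V Qb) w * ψ w) = (Nat.card hB.conn : Qb) := by
    rw [← sumOn_one]
    refine sumOn_congr _ fun w _ => ?_
    rw [AddChar.inv_apply', inv_mul_cancel₀ (addChar_ne_zero ψ w)]
  -- `L(ψ₁) = 0`
  have hzero : ∀ τ ∈ P.inertiaSubgroupIn ℚ, act τ 0 = 0 := by
    intro τ hτ'
    have h := hadd τ hτ' 0 0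
    rw [add_zero] at h
    exact left_eq_add.mp h
  set κ : V → Qb := fun w => (ψ⁻¹ : AddChar V Qb) w * ψ₁ w with hκ
  have hκmul : ∀ w w', κ (w + w') = κ w * κ w' := by
    intro w w'
    rw [hκ]
    show (ψ⁻¹ : AddChar V Qb) (w + w') * σ⁻¹ (ψ (act σ (w + w'))) =
      ((ψ⁻¹ : AddChar V Qb) w * σ⁻¹ (ψ (act σ w))) * ((ψ⁻¹ : AddChar V Qb) w' * σ⁻¹ (ψ (act σ w')))
    rw [hadd σ hσ, AddChar.map_add_eq_mul, AddChar.map_add_eq_mul, map_mul]
    ring
  have hκv : κ v ≠ 1 := by
    intro h1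
    apply hne
    have h2 : (ψ⁻¹ : AddChar V Qb) v * ψ₁ v = 1 := h1
    rw [AddChar.inv_apply'] at h2
    have h3 := congrArg (fun z => ψ v * z) h2
    simp only [mul_one] at h3
    rw [← mul_assoc, mul_inv_cancel₀ (addChar_ne_zero ψ v), one_mul] at h3
    exact h3
  have hLψ₁ : sumOn hB.conn κ = 0 := by
    have h1 : sumOn hB.conn (fun w => κ (w + v)) = sumOn hB.conn κ := sumOn_translate _ κ hv
    have h2 : (fun w => κ (w + v)) = fun w => κ v * κ w := by
      funext w
      rw [hκmul, mul_comm]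
    rw [h2, sumOn_mul_left] at h1
    have h3 : (κ v - 1) * sumOn hB.conn κ = 0 := by
      rw [sub_mul, one_mul, h1, sub_self]
    rcases mul_eq_zero.mp h3 with h4 | h4
    · exact absurd (sub_eq_zero.mp h4) hκv
    · exact h4
  rw [hLψ₁, hLψ, zero_sub] at hdiff
  -- contradiction: `-1` lies in the maximal ideal
  have hm : (∑ i, (σ⁻¹ (c i : Qb) - (c i : Qb)) * t i) ∈ P.nonunits :=
    nonunits_sum_mem _ _ fun i _ => nonunits_mul_mem_right
      (((mem_inertiaSubgroupIn_iff P σ⁻¹).1 hτ).2 _ (c i).2) (ht i)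
  have h5 : (∑ i, (σ⁻¹ (c i : Qb) - (c i : Qb)) * t i) = -1 := by
    have h6 : (Nat.card hB.conn : Qb) * (-1) =
        (Nat.card hB.conn : Qb) * ∑ i, (σ⁻¹ (c i : Qb) - (c i : Qb)) * t i := by
      rw [← hdiff]
      ring
    exact (mul_left_cancel₀ (card_ne_zero _) h6).symm
  rw [h5] at hm
  exact one_notMem_nonunits P (by simpa using nonunits_neg_mem hm)

/-- **(MULT-CONN), numerical form.** If `σ` in the inertia group raises every root of unity of
order dividing `|V|` to the power `a`, then `σ v = a • v` on the connected component. -/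
theorem act_eq_nsmul_of_mem_conn (hB : IsPOrder P Γ act B)
    (hI : P.inertiaSubgroupIn ℚ ≤ Γ) (hgood : Good P B hB.conn)
    (hadd : ∀ σ ∈ P.inertiaSubgroupIn ℚ, ∀ v w, act σ (v + w) = act σ v + act σ w)
    (σ : GQ) (hσ : σ ∈ P.inertiaSubgroupIn ℚ) (a : ℕ)
    (ha : ∀ μ : Qb, μ ^ Nat.card V = 1 → σ μ = μ ^ a) {v : V} (hv : v ∈ hB.conn) :
    act σ v = a • v := by
  by_contra hne
  have hne' : act σ v - a • v ≠ 0 := sub_ne_zero.mpr hne
  obtain ⟨ψ, hψ⟩ := exists_addChar_ne_one hne'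
  apply hψ
  have h1 := addChar_act_eq_of_mem_conn hB hI hgood hadd σ hσ ψ hv
  rw [ha _ (addChar_pow_card ψ v), ← AddChar.map_nsmul_eq_pow] at h1
  rw [sub_eq_add_neg, AddChar.map_add_eq_mul, h1, ← AddChar.map_add_eq_mul, add_neg_cancel,
    AddChar.map_zero_eq_one]

end

end Fermat.Agent.S15P.Loc65.MultConn
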