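/-
S15 (row L3-ODD): the local statements at a prime `r` for a finite Galois module with a
`P`-order (`Lib/FinFlat`), `P` a valuation subring of `ℚ̄` over `r`, `I` its inertia group.

With `V⁰ = hB.conn` and `Good P B V⁰` ("the averages over `V⁰` are integral", `MultConn.lean`):

* `exists_flag`, `good_conn_of_steps` : `Good P B V⁰` from step vectors (every proper
  stable subgroup `S` has `y ∉ S`, `r y ∈ S`, `σ y ∈ ℤ y + S`);
* `mem_of_mem_conn_of_fixed_mod` **(Z)** : `r` odd; a point `d` of `V⁰` with `r d ∈ S` which is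
  inertia-fixed modulo the subgroup `S` lies in `S`;
* `step_triv` : hence, over a step `y` on which inertia is trivial modulo `S`, a point `x` with
  `σ x - x ∈ ℤ y + S` has `σ x - x ∈ S` (`σ` in inertia): no ramified extension of a trivial
  step by a trivial step;
* `exists_unit_kummer` **(MU)** : any `r`; for every additive character `ψ` and every point `x`
  there is a `P`-unit `β` with `σ β = ψ (σ x - x) β` for all `σ` in inertia: the Kummer class of
  `σ ↦ ψ (σ x - x)` on inertia is a unit class.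
-/
import Mathlib
import Fermat.Agent.S15P.Loc65.MultConn
import Fermat.Agent.PT.G.CycloField

set_option autoImplicit false
set_option linter.style.haveILetI false
set_option linter.unusedSectionVars false

namespace Fermat.Agent.S15P.Loc65.LocalOdd

open Fermat.Agent.Lib.FinFlat Fermat.Agent.PT.Levels Fermat.Agent.S15P.Loc65.MultConn

local notation "Qb" => AlgebraicClosure ℚ
local notation "GQ" => (AlgebraicClosure ℚ ≃ₐ[ℚ] AlgebraicClosure ℚ)

noncomputable section

variable {V : Type} [AddCommGroup V]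

/-! ### Cyclic steps -/

theorem nsmul_mem_of_mem_sup {r : ℕ} {S : AddSubgroup V} {y : V} (hry : r • y ∈ S) {v : V}
    (hv : v ∈ S ⊔ AddSubgroup.zmultiples y) : r • v ∈ S := by
  obtain ⟨s, hs, t, ht, rfl⟩ := AddSubgroup.mem_sup.1 hv
  obtain ⟨m, rfl⟩ := AddSubgroup.mem_zmultiples_iff.1 ht
  rw [nsmul_add, smul_comm r m y]
  exact S.add_mem (S.nsmul_mem hs r) (S.zsmul_mem hry m)

theorem exists_lt_sub_nsmul_mem {r : ℕ} (hr : r.Prime) {S : AddSubgroup V} {y : V}
    (hry : r • y ∈ S) {y₀ : V} (hy₀ : y₀ ∈ S ⊔ AddSubgroup.zmultiples y) (hy₀S : y₀ ∉ S) {v : V}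
    (hv : v ∈ S ⊔ AddSubgroup.zmultiples y) : ∃ i < r, v - i • y₀ ∈ S := by
  haveI : Fact r.Prime := ⟨hr⟩
  obtain ⟨s₀, hs₀, t₀, ht₀, rfl⟩ := AddSubgroup.mem_sup.1 hy₀
  obtain ⟨m₀, rfl⟩ := AddSubgroup.mem_zmultiples_iff.1 ht₀
  obtain ⟨s, hs, t, ht, rfl⟩ := AddSubgroup.mem_sup.1 hv
  obtain ⟨m, rfl⟩ := AddSubgroup.mem_zmultiples_iff.1 ht
  have hry' : (r : ℤ) • y ∈ S := by rw [natCast_zsmul]; exact hry
  have hdvd : ∀ k : ℤ, (r : ℤ) ∣ k → k • y ∈ S := by
    rintro k ⟨c, rfl⟩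
    rw [mul_comm, mul_smul]
    exact S.zsmul_mem hry' c
  have hm₀ : ((m₀ : ℤ) : ZMod r) ≠ 0 := by
    intro h
    exact hy₀S (S.add_mem hs₀ (hdvd m₀ ((ZMod.intCast_zmod_eq_zero_iff_dvd m₀ r).1 h)))
  refine ⟨(((m : ℤ) : ZMod r) / ((m₀ : ℤ) : ZMod r)).val, ZMod.val_lt _, ?_⟩
  set i : ℕ := (((m : ℤ) : ZMod r) / ((m₀ : ℤ) : ZMod r)).val with hi
  have hcong : (r : ℤ) ∣ m - (i : ℤ) * m₀ := by
    rw [← ZMod.intCast_zmod_eq_zero_iff_dvd]
    push_cast
    rw [hi, ZMod.natCast_zmod_val, div_mul_cancel₀ _ hm₀, sub_self]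
  have e : s + m • y - i • (s₀ + m₀ • y) = (s - i • s₀) + (m - (i : ℤ) * m₀) • y := by
    rw [sub_smul, mul_smul, natCast_zsmul, nsmul_add]
    abel
  rw [e]
  exact S.add_mem (S.sub_mem hs (S.nsmul_mem hs₀ i)) (hdvd _ hcong)

/-- `φ d ≡ d` modulo `S` if `d ∈ ℤ y + S`, `φ y ≡ y` modulo `S` and `S` is `φ`-stable. -/
theorem map_sub_mem_of_step (φ : V →+ V) (S : AddSubgroup V) (hS : ∀ v ∈ S, φ v ∈ S) {y d : V}
    (hy : φ y - y ∈ S) (j : ℤ) (hj : d - j • y ∈ S) : φ d - d ∈ S := by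
  have e : φ d - d = (φ (d - j • y) - (d - j • y)) + j • (φ y - y) := by
    rw [map_sub, map_zsmul, smul_sub]
    abel
  rw [e]
  exact S.add_mem (S.sub_mem (hS _ hj) hj) (S.zsmul_mem hy j)

/-- **An inertia-stable flag with cyclic steps of order `r`**, from step vectors. -/
theorem exists_flag {r : ℕ} (hr : r.Prime) [Finite V] (I : Subgroup GQ) {act : GQ → V → V}
    (hadd : ∀ σ ∈ I, ∀ v w, act σ (v + w) = act σ v + act σ w)
    (U : ∀ S : AddSubgroup V, (∀ σ ∈ I, ∀ v ∈ S, act σ v ∈ S) → S ≠ ⊤ →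
      ∃ y, y ∉ S ∧ r • y ∈ S ∧ ∀ σ ∈ I, ∃ m : ℤ, act σ y - m • y ∈ S) :
    ∀ S : AddSubgroup V, (∀ σ ∈ I, ∀ v ∈ S, act σ v ∈ S) →
      ∃ (n : ℕ) (F : ℕ → AddSubgroup V), F 0 = S ∧ F n = ⊤ ∧ (∀ j < n, F j ≤ F (j + 1)) ∧
        (∀ j < n, ∀ y ∈ F (j + 1), r • y ∈ F j) ∧
        (∀ j < n, ∀ y₀ ∈ F (j + 1), y₀ ∉ F j → ∀ y ∈ F (j + 1), ∃ i < r, y - i • y₀ ∈ F j) ∧
        (∀ j ≤ n, ∀ σ ∈ I, ∀ v ∈ F j, act σ v ∈ F j) := by
  intro S
  induction S using WellFoundedGT.induction with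
  | ind S ih =>
    intro hS
    by_cases hST : S = ⊤
    · exact ⟨0, fun _ => S, rfl, hST, fun j hj => absurd hj (Nat.not_lt_zero j),
        fun j hj => absurd hj (Nat.not_lt_zero j), fun j hj => absurd hj (Nat.not_lt_zero j),
        fun j _ => hS⟩
    obtain ⟨y, hyS, hry, hy⟩ := U S hS hST
    have hlt : S < S ⊔ AddSubgroup.zmultiples y := by
      refine lt_of_le_of_ne le_sup_left (fun h => hyS ?_)
      rw [h]
      exact (le_sup_right : AddSubgroup.zmultiples y ≤ _) (AddSubgroup.mem_zmultiples y)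
    have hS'st : ∀ σ ∈ I, ∀ v ∈ S ⊔ AddSubgroup.zmultiples y,
        act σ v ∈ S ⊔ AddSubgroup.zmultiples y := by
      intro σ hσ v hv
      obtain ⟨s, hs, t, ht, rfl⟩ := AddSubgroup.mem_sup.1 hv
      obtain ⟨m, rfl⟩ := AddSubgroup.mem_zmultiples_iff.1 ht
      obtain ⟨k, hk⟩ := hy σ hσ
      obtain ⟨φ, hφ⟩ : ∃ φ : V →+ V, ∀ v, φ v = act σ v :=
        ⟨AddMonoidHom.mk' (act σ) (hadd σ hσ), fun v => rfl⟩
      have e : act σ (s + m • y) = (act σ s + m • (act σ y - k • y)) + (m * k) • y := by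
        rw [← hφ, ← hφ, ← hφ, map_add, map_zsmul, smul_sub, mul_smul]
        abel
      rw [e]
      exact AddSubgroup.mem_sup.2 ⟨_, S.add_mem (hS σ hσ s hs) (S.zsmul_mem hk m), _,
        AddSubgroup.mem_zmultiples_iff.2 ⟨m * k, rfl⟩, rfl⟩
    obtain ⟨n, F, hF0, hFn, hmono, hpF, hcyc, hst⟩ := ih _ hlt hS'st
    refine ⟨n + 1, fun j => Nat.casesOn j S F, rfl, hFn, ?_, ?_, ?_, ?_⟩
    · intro j hj
      cases j with
      | zero =>
        show S ≤ F 0
        rw [hF0]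
        exact le_sup_left
      | succ k => exact hmono k (Nat.lt_of_succ_lt_succ hj)
    · intro j hj
      cases j with
      | zero =>
        intro v hv
        have hv' : v ∈ S ⊔ AddSubgroup.zmultiples y := by rw [← hF0]; exact hv
        exact nsmul_mem_of_mem_sup hry hv'
      | succ k => exact hpF k (Nat.lt_of_succ_lt_succ hj)
    · intro j hj
      cases j with
      | zero =>
        intro y₀ hy₀ hy₀S v hv
        have hy₀' : y₀ ∈ S ⊔ AddSubgroup.zmultiples y := by rw [← hF0]; exact hy₀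
        have hv' : v ∈ S ⊔ AddSubgroup.zmultiples y := by rw [← hF0]; exact hv
        exact exists_lt_sub_nsmul_mem hr hry hy₀' hy₀S hv'
      | succ k => exact hcyc k (Nat.lt_of_succ_lt_succ hj)
    · intro j hj
      cases j with
      | zero => exact hS
      | succ k => exact hst k (Nat.le_of_succ_le_succ hj)

variable [Finite V] {P : ValuationSubring Qb} {Γ : Subgroup GQ} {act : GQ → V → V}
  {B : Subalgebra P (V → Qb)}

/-- **Integral averages on the connected component, from step vectors** (the shape of the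
hypothesis `U` of the abstract count), for the subgroups stable under a group `Γ'` containing the
inertia group (e.g. `Γ' = ⊤`). -/
theorem good_conn_of_steps {r : ℕ} (hr : r.Prime) (hP : P.LiesOverPrime r)
    (hB : IsPOrder P Γ act B) (hI : P.inertiaSubgroupIn ℚ ≤ Γ)
    (Γ' : Subgroup GQ) (hΓ' : P.inertiaSubgroupIn ℚ ≤ Γ')
    (hadd : ∀ σ ∈ Γ', ∀ v w, act σ (v + w) = act σ v + act σ w)
    (hinj : ∀ σ ∈ P.inertiaSubgroupIn ℚ, Function.Injective (act σ))
    (U : ∀ S : AddSubgroup V, (∀ σ ∈ Γ', ∀ v ∈ S, act σ v ∈ S) → S ≠ ⊤ →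
      ∃ y, y ∉ S ∧ r • y ∈ S ∧ ∀ σ ∈ Γ', ∃ m : ℤ, act σ y - m • y ∈ S) :
    Good P B hB.conn := by
  have hzero : ∀ σ ∈ Γ', act σ 0 = 0 := by
    intro σ hσ
    have h := hadd σ hσ 0 0
    rw [add_zero] at h
    exact left_eq_add.mp h
  obtain ⟨n, F, hF0, hFn, hmono, hpF, hcyc, hst⟩ :=
    exists_flag hr Γ' hadd U ⊥ (fun σ hσ v hv => by
      rw [AddSubgroup.mem_bot] at hv ⊢
      rw [hv]
      exact hzero σ hσ)
  exact good_conn_of_flag hr hP hB hI (fun σ hσ => hadd σ (hΓ' hσ)) hinj n F hF0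
    (by rw [hFn]; exact le_top) hmono hpF hcyc (fun j hj σ hσ => hst j hj σ (hΓ' hσ))

/-! ### (Z) -/

/-- **(Z)** For an odd prime `r`: a point `d` of the connected component with `r d ∈ S` which is
fixed by the inertia group modulo the subgroup `S` lies in `S`. -/
theorem mem_of_mem_conn_of_fixed_mod {r : ℕ} (hr : r.Prime) (hr2 : r ≠ 2)
    (hP : P.LiesOverPrime r) (hB : IsPOrder P Γ act B) (hI : P.inertiaSubgroupIn ℚ ≤ Γ)
    (hadd : ∀ σ ∈ P.inertiaSubgroupIn ℚ, ∀ v w, act σ (v + w) = act σ v + act σ w)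
    (hgood : Good P B hB.conn) (S : AddSubgroup V) {d : V} (hd : d ∈ hB.conn) (hrd : r • d ∈ S)
    (hfix : ∀ τ ∈ P.inertiaSubgroupIn ℚ, act τ d - d ∈ S) : d ∈ S := by
  by_contra hdS
  haveI : Fact r.Prime := ⟨hr⟩
  -- a character trivial on `S` and nontrivial at `d`
  have hne : (QuotientAddGroup.mk d : V ⧸ S) ≠ 0 := fun h =>
    hdS ((QuotientAddGroup.eq_zero_iff d).1 h)
  obtain ⟨ψ₀, hψ₀⟩ := exists_addChar_ne_one hne
  obtain ⟨ψ, hψ⟩ : ∃ ψ : AddChar V Qb, ∀ v, ψ v = ψ₀ (QuotientAddGroup.mk v) :=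
    ⟨ψ₀.compAddMonoidHom (QuotientAddGroup.mk' S), fun v => rfl⟩
  have hψS : ∀ s ∈ S, ψ s = 1 := by
    intro s hs
    rw [hψ, (QuotientAddGroup.eq_zero_iff s).2 hs, AddChar.map_zero_eq_one]
  have hψd : ψ d ≠ 1 := by rw [hψ]; exact hψ₀
  have hpow : ψ d ^ r = 1 := by rw [← AddChar.map_nsmul_eq_pow, hψS _ hrd]
  have hprim : IsPrimitiveRoot (ψ d) r := by
    have h := orderOf_eq_prime hpow hψd
    rw [← h]
    exact IsPrimitiveRoot.orderOf _
  -- an element of the inertia group moving the primitive `r`-th roots of unity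
  have hu : (-1 : (ZMod r)ˣ) ≠ 1 := by
    haveI : Fact (2 < r) := ⟨lt_of_le_of_ne hr.two_le (Ne.symm hr2)⟩
    intro h
    exact ZMod.neg_one_ne_one (n := r) (by simpa using congrArg Units.val h)
  obtain ⟨τ, hτ, hτu⟩ := Fermat.Agent.PT.G.exists_inertia_cycloChar_eq r P hP (-1)
  have hmove : τ (ψ d) ≠ ψ d := fun h =>
    hu (by rw [← hτu]; exact (cycloChar_eq_one_iff r τ hprim).2 h)
  apply hmove
  rw [← addChar_act_eq_of_mem_conn hB hI hgood hadd τ hτ ψ hd]
  have e : act τ d = (act τ d - d) + d := by abel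
  rw [e, AddChar.map_add_eq_mul, hψS _ (hfix τ hτ), one_mul]

/-- **(Z), in the shape of a trivial step.** `r` odd; `S` an inertia-stable subgroup, `y` a
vector with `r y ∈ S` fixed by inertia modulo `S`.  If `σ` is in the inertia group and
`σ x - x ∈ ℤ y + S`, then `σ x - x ∈ S`. -/
theorem step_triv {r : ℕ} (hr : r.Prime) (hr2 : r ≠ 2) (hP : P.LiesOverPrime r)
    (hB : IsPOrder P Γ act B) (hI : P.inertiaSubgroupIn ℚ ≤ Γ)
    (hadd : ∀ σ ∈ P.inertiaSubgroupIn ℚ, ∀ v w, act σ (v + w) = act σ v + act σ w)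
    (hgood : Good P B hB.conn) (S : AddSubgroup V)
    (hS : ∀ σ ∈ P.inertiaSubgroupIn ℚ, ∀ v ∈ S, act σ v ∈ S) {y : V} (hry : r • y ∈ S)
    (hy : ∀ τ ∈ P.inertiaSubgroupIn ℚ, act τ y - y ∈ S) {x : V} {σ : GQ}
    (hσ : σ ∈ P.inertiaSubgroupIn ℚ) (hx : ∃ j : ℤ, act σ x - x - j • y ∈ S) :
    act σ x - x ∈ S := by
  obtain ⟨j, hj⟩ := hx
  have hd : act σ x - x ∈ hB.conn :=
    hB.act_sub_mem_conn (hI hσ) ((mem_inertiaSubgroupIn_iff P σ).1 hσ).2 x
  refine mem_of_mem_conn_of_fixed_mod hr hr2 hP hB hI hadd hgood S hd ?_ ?_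
  · have e : r • (act σ x - x) = r • (act σ x - x - j • y) + j • (r • y) := by
      rw [smul_comm j r y, ← nsmul_add, sub_add_cancel]
    rw [e]
    exact S.add_mem (S.nsmul_mem hj r) (S.zsmul_mem hry j)
  · intro τ hτ
    obtain ⟨φ, hφ⟩ : ∃ φ : V →+ V, ∀ v, φ v = act τ v :=
      ⟨AddMonoidHom.mk' (act τ) (hadd τ hτ), fun v => rfl⟩
    rw [← hφ]
    exact map_sub_mem_of_step φ S (fun v hv => by rw [hφ]; exact hS τ hτ v hv)
      (by rw [hφ]; exact hy τ hτ) j hj

/-! ### (MU) -/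

/-- **(MU): the Kummer classes are unit classes.** For every additive character `ψ` of `V` and
every point `x` there is a unit `β` of `P` with `σ β = ψ (σ x - x) β` for all `σ` in the inertia
group. -/
theorem exists_unit_kummer (hB : IsPOrder P Γ act B) (hI : P.inertiaSubgroupIn ℚ ≤ Γ)
    (hadd : ∀ σ ∈ P.inertiaSubgroupIn ℚ, ∀ v w, act σ (v + w) = act σ v + act σ w)
    (hinj : ∀ σ ∈ P.inertiaSubgroupIn ℚ, Function.Injective (act σ))
    (hgood : Good P B hB.conn) (ψ : AddChar V Qb) (x : V) :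
    ∃ β : Qb, β ∈ P ∧ β ∉ P.nonunits ∧
      ∀ σ ∈ P.inertiaSubgroupIn ℚ, σ β = ψ (act σ x - x) * β := by
  classical
  have hN : (Nat.card hB.conn : Qb) ≠ 0 := card_ne_zero hB.conn
  -- the twisted sums are divisible by `|V⁰|`
  have hTgood : ∀ f ∈ B, ∃ t ∈ P,
      sumOn hB.conn (fun v => ψ (-v) * f (v + x)) = (Nat.card hB.conn : Qb) * t := by
    intro f hf
    have h2 : ((ψ⁻¹ : AddChar V Qb) : V → Qb) ∈ B := hB.addChar_mem' ψ⁻¹
    have h3 := B.mul_mem h2 (hB.translate_mem hf x)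
    have h4 : (fun v => ψ (-v) * f (v + x)) =
        ((ψ⁻¹ : AddChar V Qb) : V → Qb) * (fun v => f (v + x)) := by
      funext v
      rw [Pi.mul_apply, AddChar.inv_apply]
    rw [h4]
    exact hgood _ h3
  -- the test function
  have hg₀B : (fun w => ψ (-x) * (ψ w * (if w - x ∈ hB.conn then (1 : Qb) else 0))) ∈ B := by
    have h1 := hB.indicator_coset_mem x
    have h2 : (fun w => ψ w * (if w - x ∈ hB.conn then (1 : Qb) else 0)) ∈ B :=
      B.mul_mem (hB.addChar_mem' ψ) h1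
    exact const_mul_mem (hB.integral _ (hB.addChar_mem' ψ) (-x)) h2
  have hTg₀ : sumOn hB.conn (fun v => ψ (-v) *
      (ψ (-x) * (ψ (v + x) * (if v + x - x ∈ hB.conn then (1 : Qb) else 0)))) =
        (Nat.card hB.conn : Qb) := by
    have h1 : ∀ v ∈ hB.conn, ψ (-v) *
        (ψ (-x) * (ψ (v + x) * (if v + x - x ∈ hB.conn then (1 : Qb) else 0))) = 1 := by
      intro v hv
      rw [add_sub_cancel_right, if_pos hv, mul_one, ← AddChar.map_add_eq_mul,
        ← AddChar.map_add_eq_mul]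
      have e : -v + (-x + (v + x)) = 0 := by abel
      rw [e, AddChar.map_zero_eq_one]
    rw [sumOn_congr hB.conn h1, sumOn_one]
  -- expansion in an equivariant basis
  obtain ⟨n, c, g, hg, hge, hsum⟩ := hB.exists_eq_sum hg₀B
  choose t ht htT using fun i => hTgood (g i) (hg i)
  have hone : ∑ i, (c i : Qb) * t i = 1 := by
    have h1 : (Nat.card hB.conn : Qb) =
        ∑ i, (c i : Qb) * sumOn hB.conn (fun v => ψ (-v) * g i (v + x)) := by
      rw [← hTg₀]
      have h2 : (fun v => ψ (-v) *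
          (ψ (-x) * (ψ (v + x) * (if v + x - x ∈ hB.conn then (1 : Qb) else 0)))) =
            fun v => ∑ i, (c i : Qb) * (ψ (-v) * g i (v + x)) := by
        funext v
        have h3 := congrFun hsum (v + x)
        rw [Finset.sum_apply] at h3
        rw [h3, Finset.mul_sum]
        refine Finset.sum_congr rfl fun i _ => ?_
        rw [Pi.smul_apply, smul_eq_mul]
        ring
      rw [h2, sumOn_finset_sum]
      refine Finset.sum_congr rfl fun i _ => ?_
      rw [sumOn_mul_left]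
    have h3 : (Nat.card hB.conn : Qb) * (∑ i, (c i : Qb) * t i) = (Nat.card hB.conn : Qb) * 1 := by
      rw [mul_one, Finset.mul_sum]
      refine Eq.trans (Finset.sum_congr rfl fun i _ => ?_) h1.symm
      rw [htT i]
      ring
    exact mul_left_cancel₀ hN h3
  -- one of the `t i` is a unit
  have hex : ∃ i, t i ∉ P.nonunits := by
    by_contra hall
    have hall' : ∀ i, t i ∈ P.nonunits := fun i => by_contra fun h => hall ⟨i, h⟩
    have h1 : (∑ i, (c i : Qb) * t i) ∈ P.nonunits :=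
      nonunits_sum_mem _ _ (fun i _ => nonunits_mul_mem_left (c i).2 (hall' i))
    rw [hone] at h1
    exact one_notMem_nonunits P h1
  obtain ⟨i, hi⟩ := hex
  refine ⟨t i, ht i, hi, fun σ hσ => ?_⟩
  -- the action of `σ`
  have hd : act σ x - x ∈ hB.conn :=
    hB.act_sub_mem_conn (hI hσ) ((mem_inertiaSubgroupIn_iff P σ).1 hσ).2 x
  obtain ⟨φ, hφ⟩ : ∃ φ : V →+ V, ∀ v, φ v = act σ v :=
    ⟨AddMonoidHom.mk' (act σ) (hadd σ hσ), fun v => rfl⟩
  have hzero : act σ 0 = 0 := by rw [← hφ, map_zero]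
  have hconn : ∀ v ∈ hB.conn, act σ v ∈ hB.conn := fun v hv =>
    hB.act_mem_conn (hI hσ) (fun x hx => apply_mem_nonunits_of_inertia hσ hx) hzero hv
  have key : σ (sumOn hB.conn (fun v => ψ (-v) * g i (v + x))) =
      ψ (act σ x - x) * sumOn hB.conn (fun v => ψ (-v) * g i (v + x)) := by
    rw [sumOn_map]
    have s1 : sumOn hB.conn (fun v => σ (ψ (-v) * g i (v + x))) =
        sumOn hB.conn (fun v => ψ (-(act σ v)) * g i (act σ v + act σ x)) := by
      refine sumOn_congr hB.conn fun v hv => ?_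
      rw [map_mul, ← addChar_act_eq_of_mem_conn hB hI hgood hadd σ hσ ψ (hB.conn.neg_mem hv),
        ← hge i σ (hI hσ)]
      simp only [← hφ, map_neg, map_add]
    have s2 : sumOn hB.conn (fun v => ψ (-(act σ v)) * g i (act σ v + act σ x)) =
        sumOn hB.conn (fun v => ψ (-v) * g i (v + act σ x)) :=
      sumOn_comp hB.conn (fun v => ψ (-v) * g i (v + act σ x)) (act σ) hconn
        (fun v _ w _ h => hinj σ hσ h)
    have s3 : sumOn hB.conn (fun v => ψ (-v) * g i (v + act σ x)) =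
        sumOn hB.conn (fun v => ψ (-(v + (act σ x - x)) + (act σ x - x)) *
          g i ((v + (act σ x - x)) + x)) := by
      refine sumOn_congr hB.conn fun v _ => ?_
      rw [show -(v + (act σ x - x)) + (act σ x - x) = -v by abel,
        show v + (act σ x - x) + x = v + act σ x by abel]
    have s4 := sumOn_translate hB.conn (fun v => ψ (-v + (act σ x - x)) * g i (v + x)) hd
    have s5 : sumOn hB.conn (fun v => ψ (-v + (act σ x - x)) * g i (v + x)) =
        ψ (act σ x - x) * sumOn hB.conn (fun v => ψ (-v) * g i (v + x)) := by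
      rw [← sumOn_mul_left]
      refine sumOn_congr hB.conn fun v _ => ?_
      rw [AddChar.map_add_eq_mul]
      ring
    rw [s1, s2, s3]
    exact s4.trans s5
  have h5 : σ ((Nat.card hB.conn : Qb) * t i) =
      ψ (act σ x - x) * ((Nat.card hB.conn : Qb) * t i) := by
    rw [← htT i]
    exact key
  rw [map_mul, map_natCast] at h5
  exact mul_left_cancel₀ hN (by rw [h5]; ring)

end

end Fermat.Agent.S15P.Loc65.LocalOdd
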