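/-
S15 (row L3-ODD), the seam from the local statements (`LocalOdd.lean`) to the characters (L4),
abstract side.

`J` an abelian group with an action of `GQ`, `G ≤ J` a finite stable subgroup, `z : J` a point
with `γ z - z ∈ G` for all `γ`.  The Kummer action `kact` on `G × ℤ/r^k`:
`σ (g, a) = (σ g + a (σ z - z), a)`; the point `x = (0, 1)` has `σ x - x = (σ z - z, 0)`.
If `kact` has a Hopf order at `r` (hypothesis `HO`) and `G` has step vectors (hypothesis `U`, the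
shape of the abstract count), then for `S ≤ G` stable and a step `y`:

* `kum_triv_step` : `r` odd, `y` fixed by inertia at `P | r` modulo `S`; if `τ` is in the inertia
  group and `τ z - z ∈ ℤ y + S` then `τ z - z ∈ S`;
* `kum_valuation` : any `r`; if `τ z - z ≡ a(τ) y` modulo `S` on inertia and `θ ≠ 0` has
  `τ θ = ζ ^ a(τ) θ` on inertia, then `v_P(θ) ∈ v_P(r)^ℤ`;
* `kum_dvd_padicValRat` : hence `r ∣ v_r(u)` if moreover `θ ^ r = u ∈ ℚ`.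
-/
import Mathlib
import Fermat.Agent.S15P.Loc65.LocalOdd
import Fermat.Agent.Lib.FinFlat.PBridge
import Fermat.Agent.Lib.FinFlat.OrderOps
import Fermat.Agent.Lib.FinFlat.Unr
import Fermat.Agent.Lib.FrobeniusExists
import Fermat.Agent.PT.G.CycloLocNorm

set_option autoImplicit false
set_option linter.style.haveILetI false
set_option linter.unusedSectionVars false

namespace Fermat.Agent.S15P.Loc65.KumAbs

open Fermat.Agent.Lib.FinFlat Fermat.Agent.PT.Levels Fermat.Agent.S15P.Loc65.MultConn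
  Fermat.Agent.S15P.Loc65.LocalOdd

local notation "Qb" => AlgebraicClosure ℚ
local notation "GQ" => (AlgebraicClosure ℚ ≃ₐ[ℚ] AlgebraicClosure ℚ)

noncomputable section

/-- A Hopf order over `ℤ_(r)` gives a `P`-order with a basis equivariant for the whole Galois
group; the action is additive and injective. -/
theorem exists_isPOrder_of_hasHopfOrder {r : ℕ} [Fact r.Prime] {V : Type} [AddCommGroup V]
    [Finite V] {act : GQ → V → V} (h : HasHopfOrder r act) (P : ValuationSubring Qb)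
    (hP : P.LiesOverPrime r) :
    ∃ B : Subalgebra P (V → Qb), IsPOrder P ⊤ act B ∧
      (∀ (σ : GQ) (v w : V), act σ (v + w) = act σ v + act σ w) ∧
      ∀ σ : GQ, Function.Injective (act σ) := by
  obtain ⟨B₀, hB₀⟩ := h
  obtain ⟨B, hB, -⟩ := hB₀.exists_isPOrder P hP
  refine ⟨B, hB, hB₀.act_add, fun σ v w hvw => hB₀.separates v w fun f hf => ?_⟩
  have h1 := hB₀.equivariant f hf σ v
  have h2 := hB₀.equivariant f hf σ w
  rw [hvw] at h1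
  exact σ.injective (h1.symm.trans h2)

/-- Injectivity of `n ↦ a ^ n` for `0 < a < 1`. -/
theorem zpow_inj_of_lt_one {Γ₀ : Type*} [LinearOrderedCommGroupWithZero Γ₀] {a : Γ₀} (h0 : a ≠ 0)
    (h1 : a < 1) {i j : ℤ} (h : a ^ i = a ^ j) : i = j := by
  by_contra hne
  wlog hlt : i < j generalizing i j
  · exact this h.symm (Ne.symm hne) (lt_of_le_of_ne (not_lt.mp hlt) (Ne.symm hne))
  obtain ⟨n, hn⟩ : ∃ n : ℕ, j = i + ((n + 1 : ℕ) : ℤ) := ⟨(j - i - 1).toNat, by omega⟩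
  rw [hn, zpow_add₀ h0, zpow_natCast] at h
  have hi0 : a ^ i ≠ 0 := zpow_ne_zero _ h0
  have h2 : a ^ (n + 1) = 1 := by
    have h3 : a ^ i * 1 = a ^ i * a ^ (n + 1) := by rw [mul_one]; exact h
    exact (mul_left_cancel₀ hi0 h3).symm
  exact absurd h2 (ne_of_lt (pow_lt_one₀ zero_le h1 (Nat.succ_ne_zero n)))

variable {J : Type} [AddCommGroup J] [DistribMulAction GQ J]

/-- The Kummer action on `G × ℤ/m` attached to a point `z` with `γ z - z ∈ G`. -/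
def kact (m : ℕ) (G : AddSubgroup J) (z : J) (hGst : ∀ (γ : GQ), ∀ g ∈ G, γ • g ∈ G)
    (hzG : ∀ γ : GQ, γ • z - z ∈ G) : GQ → ↥G × ZMod m → ↥G × ZMod m :=
  fun σ p => (⟨σ • (p.1 : J) + p.2.val • (σ • z - z),
    G.add_mem (hGst σ _ p.1.2) (G.nsmul_mem (hzG σ) _)⟩, p.2)

/-- The subgroup `S × 0` of `G × ℤ/m`. -/
def lift0 (m : ℕ) (G S : AddSubgroup J) : AddSubgroup (↥G × ZMod m) :=
  (S.comap G.subtype).prod ⊥

theorem mem_lift0 {m : ℕ} {G S : AddSubgroup J} {p : ↥G × ZMod m} :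
    p ∈ lift0 m G S ↔ (p.1 : J) ∈ S ∧ p.2 = 0 := by
  rw [lift0, AddSubgroup.mem_prod, AddSubgroup.mem_comap, AddSubgroup.mem_bot]
  rfl

section kact

variable (m : ℕ) (G : AddSubgroup J) (z : J) (hGst : ∀ (γ : GQ), ∀ g ∈ G, γ • g ∈ G)
  (hzG : ∀ γ : GQ, γ • z - z ∈ G)

theorem kact_sub_fst (σ : GQ) (p : ↥G × ZMod m) :
    (((kact m G z hGst hzG σ p - p).1 : ↥G) : J) =
      σ • (p.1 : J) + p.2.val • (σ • z - z) - (p.1 : J) := rfl

theorem kact_sub_snd (σ : GQ) (p : ↥G × ZMod m) : (kact m G z hGst hzG σ p - p).2 = 0 :=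
  sub_self _

theorem kact_sub_mem_lift0 (S : AddSubgroup J) (σ : GQ) (p : ↥G × ZMod m) (q : ↥G × ZMod m)
    (hq : q.2 = 0)
    (h : σ • (p.1 : J) + p.2.val • (σ • z - z) - (p.1 : J) - (q.1 : J) ∈ S) :
    kact m G z hGst hzG σ p - p - q ∈ lift0 m G S := by
  refine mem_lift0.2 ⟨h, ?_⟩
  show (kact m G z hGst hzG σ p - p).2 - q.2 = 0
  rw [kact_sub_snd, hq, sub_zero]

end kact

/-- **The step vectors of `G × ℤ/r^k`** from those of `G`. -/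
theorem kum_steps {r : ℕ} [Fact r.Prime] (k : ℕ) (G : AddSubgroup J) (z : J)
    (hGst : ∀ (γ : GQ), ∀ g ∈ G, γ • g ∈ G) (hzG : ∀ γ : GQ, γ • z - z ∈ G)
    (U : ∀ S : AddSubgroup J, S ≤ G → (∀ (γ : GQ) (x : J), x ∈ S → γ • x ∈ S) → S ≠ G →
      ∃ y ∈ G, y ∉ S ∧ r • y ∈ S ∧ ∀ γ : GQ, ∃ m : ℤ, γ • y - m • y ∈ S) :
    ∀ S' : AddSubgroup (↥G × ZMod (r ^ k)),
      (∀ σ ∈ (⊤ : Subgroup GQ), ∀ v ∈ S', kact (r ^ k) G z hGst hzG σ v ∈ S') → S' ≠ ⊤ →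
      ∃ y', y' ∉ S' ∧ r • y' ∈ S' ∧
        ∀ σ ∈ (⊤ : Subgroup GQ), ∃ m : ℤ, kact (r ^ k) G z hGst hzG σ y' - m • y' ∈ S' := by
  classical
  have hr : r.Prime := Fact.out
  haveI : NeZero (r ^ k) := ⟨pow_ne_zero _ hr.ne_zero⟩
  intro S' hS' hne
  -- the trace of `S'` on `G × 0`
  obtain ⟨S₀, hS₀⟩ : ∃ S₀ : AddSubgroup J, ∀ x : J, x ∈ S₀ ↔
      ∃ h : x ∈ G, ((⟨x, h⟩ : ↥G), (0 : ZMod (r ^ k))) ∈ S' := by
    refine ⟨(S'.comap (AddMonoidHom.inl ↥G (ZMod (r ^ k)))).map G.subtype, fun x => ?_⟩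
    constructor
    · rintro ⟨g, hg, rfl⟩
      exact ⟨g.2, hg⟩
    · rintro ⟨h, hx⟩
      exact ⟨⟨x, h⟩, hx, rfl⟩
  have hS₀G : S₀ ≤ G := fun x hx => by
    obtain ⟨h, -⟩ := (hS₀ x).1 hx
    exact h
  have hS₀st : ∀ (γ : GQ) (x : J), x ∈ S₀ → γ • x ∈ S₀ := by
    intro γ x hx
    obtain ⟨h, hx'⟩ := (hS₀ x).1 hx
    refine (hS₀ _).2 ⟨hGst γ x h, ?_⟩
    have h1 := hS' γ (Subgroup.mem_top γ) _ hx'
    have e : kact (r ^ k) G z hGst hzG γ ((⟨x, h⟩ : ↥G), (0 : ZMod (r ^ k))) =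
        ((⟨γ • x, hGst γ x h⟩ : ↥G), 0) := by
      refine Prod.ext (Subtype.ext ?_) rfl
      show γ • x + (0 : ZMod (r ^ k)).val • (γ • z - z) = γ • x
      rw [ZMod.val_zero, zero_nsmul, add_zero]
    rw [e] at h1
    exact h1
  by_cases hcase : S₀ = G
  · -- `G × 0 ⊆ S'`
    have hG0 : ∀ g : ↥G, (g, (0 : ZMod (r ^ k))) ∈ S' := by
      intro g
      have h1 : (g : J) ∈ S₀ := by rw [hcase]; exact g.2
      obtain ⟨h, hx⟩ := (hS₀ _).1 h1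
      exact hx
    have h1 : ((0 : ↥G), (1 : ZMod (r ^ k))) ∉ S' := by
      intro h1
      apply hne
      rw [eq_top_iff]
      rintro ⟨g, b⟩ -
      have e : ((g, b) : ↥G × ZMod (r ^ k)) =
          (g, 0) + b.val • ((0 : ↥G), (1 : ZMod (r ^ k))) := by
        refine Prod.ext ?_ ?_
        · show g = g + b.val • (0 : ↥G)
          rw [smul_zero, add_zero]
        · show b = 0 + b.val • (1 : ZMod (r ^ k))
          rw [zero_add, nsmul_one, ZMod.natCast_zmod_val]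
      rw [e]
      exact S'.add_mem (hG0 g) (S'.nsmul_mem h1 _)
    have hex : ∃ i, (r ^ i) • ((0 : ↥G), (1 : ZMod (r ^ k))) ∈ S' := by
      refine ⟨k, ?_⟩
      have e : (r ^ k) • ((0 : ↥G), (1 : ZMod (r ^ k))) = 0 := by
        refine Prod.ext ?_ ?_
        · show (r ^ k) • (0 : ↥G) = 0
          rw [smul_zero]
        · show (r ^ k) • (1 : ZMod (r ^ k)) = 0
          rw [nsmul_one, ZMod.natCast_self]
      rw [e]
      exact S'.zero_mem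
    have hi₀ := Nat.find_spec hex
    have hi₀pos : Nat.find hex ≠ 0 := by
      intro h0
      rw [h0, pow_zero, one_nsmul] at hi₀
      exact h1 hi₀
    obtain ⟨i, hi⟩ : ∃ i, Nat.find hex = i + 1 := Nat.exists_eq_succ_of_ne_zero hi₀pos
    have hmin : (r ^ i) • ((0 : ↥G), (1 : ZMod (r ^ k))) ∉ S' :=
      Nat.find_min hex (by rw [hi]; exact Nat.lt_succ_self i)
    refine ⟨(r ^ i) • ((0 : ↥G), (1 : ZMod (r ^ k))), hmin, ?_, fun σ _ => ⟨1, ?_⟩⟩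
    · rw [smul_smul, ← pow_succ', ← hi]
      exact hi₀
    · rw [one_smul]
      have e : kact (r ^ k) G z hGst hzG σ ((r ^ i) • ((0 : ↥G), (1 : ZMod (r ^ k)))) -
          (r ^ i) • ((0 : ↥G), (1 : ZMod (r ^ k))) =
          ((kact (r ^ k) G z hGst hzG σ ((r ^ i) • ((0 : ↥G), (1 : ZMod (r ^ k)))) -
            (r ^ i) • ((0 : ↥G), (1 : ZMod (r ^ k)))).1, 0) :=
        Prod.ext rfl (kact_sub_snd _ _ _ _ _ _ _)
      rw [e]
      exact hG0 _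
  · obtain ⟨y, hyG, hyS, hry, hy⟩ := U S₀ hS₀G hS₀st hcase
    refine ⟨((⟨y, hyG⟩ : ↥G), 0), fun h => hyS ((hS₀ y).2 ⟨hyG, h⟩), ?_, fun σ _ => ?_⟩
    · obtain ⟨h, hx⟩ := (hS₀ _).1 hry
      have e : r • (((⟨y, hyG⟩ : ↥G), (0 : ZMod (r ^ k)))) = ((⟨r • y, h⟩ : ↥G), 0) := by
        refine Prod.ext (Subtype.ext rfl) ?_
        show r • (0 : ZMod (r ^ k)) = 0
        rw [smul_zero]
      rw [e]
      exact hx
    · obtain ⟨m, hm⟩ := hy σ
      refine ⟨m, ?_⟩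
      obtain ⟨h, hx⟩ := (hS₀ _).1 hm
      have e : kact (r ^ k) G z hGst hzG σ ((⟨y, hyG⟩ : ↥G), 0) -
          m • (((⟨y, hyG⟩ : ↥G), (0 : ZMod (r ^ k)))) = ((⟨σ • y - m • y, h⟩ : ↥G), 0) := by
        refine Prod.ext (Subtype.ext ?_) ?_
        · show σ • y + (0 : ZMod (r ^ k)).val • (σ • z - z) - m • y = σ • y - m • y
          rw [ZMod.val_zero, zero_nsmul, add_zero]
        · show (0 : ZMod (r ^ k)) - m • (0 : ZMod (r ^ k)) = 0
          rw [smul_zero, sub_zero]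
      rw [e]
      exact hx

section main

variable {r : ℕ} [Fact r.Prime] (k : ℕ) (G : AddSubgroup J) [Finite G] (z : J)
  (hGst : ∀ (γ : GQ), ∀ g ∈ G, γ • g ∈ G) (hzG : ∀ γ : GQ, γ • z - z ∈ G)

/-- The `P`-order on `G × ℤ/r^k` and its integral averages on the connected component. -/
theorem kum_good (HO : HasHopfOrder r (kact (r ^ k) G z hGst hzG))
    (U : ∀ S : AddSubgroup J, S ≤ G → (∀ (γ : GQ) (x : J), x ∈ S → γ • x ∈ S) → S ≠ G →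
      ∃ y ∈ G, y ∉ S ∧ r • y ∈ S ∧ ∀ γ : GQ, ∃ m : ℤ, γ • y - m • y ∈ S)
    (P : ValuationSubring Qb) (hP : P.LiesOverPrime r) :
    ∃ (B : Subalgebra P (↥G × ZMod (r ^ k) → Qb))
      (hB : IsPOrder P ⊤ (kact (r ^ k) G z hGst hzG) B),
      (∀ (σ : GQ) (v w : ↥G × ZMod (r ^ k)), kact (r ^ k) G z hGst hzG σ (v + w) =
        kact (r ^ k) G z hGst hzG σ v + kact (r ^ k) G z hGst hzG σ w) ∧
      (∀ σ : GQ, Function.Injective (kact (r ^ k) G z hGst hzG σ)) ∧ Good P B hB.conn := by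
  have hr : r.Prime := Fact.out
  haveI : NeZero (r ^ k) := ⟨pow_ne_zero _ hr.ne_zero⟩
  obtain ⟨B, hB, hadd, hinj⟩ := exists_isPOrder_of_hasHopfOrder HO P hP
  exact ⟨B, hB, hadd, hinj, good_conn_of_steps hr hP hB le_top ⊤ le_top (fun σ _ => hadd σ)
    (fun σ _ => hinj σ) (kum_steps k G z hGst hzG U)⟩

/-- **(L3-Z), Kummer form.** `r` odd.  If `y` is fixed modulo `S` by the inertia group at `P | r`,
`τ` is in that inertia group and `τ z - z ∈ ℤ y + S`, then `τ z - z ∈ S`. -/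
theorem kum_triv_step (hr2 : r ≠ 2) (hk : k ≠ 0)
    (HO : HasHopfOrder r (kact (r ^ k) G z hGst hzG))
    (U : ∀ S : AddSubgroup J, S ≤ G → (∀ (γ : GQ) (x : J), x ∈ S → γ • x ∈ S) → S ≠ G →
      ∃ y ∈ G, y ∉ S ∧ r • y ∈ S ∧ ∀ γ : GQ, ∃ m : ℤ, γ • y - m • y ∈ S)
    (S : AddSubgroup J) (hS : ∀ (γ : GQ) (x : J), x ∈ S → γ • x ∈ S)
    (y : J) (hyG : y ∈ G) (hry : r • y ∈ S) (P : ValuationSubring Qb) (hP : P.LiesOverPrime r)
    (hy : ∀ τ ∈ P.inertiaSubgroupIn ℚ, τ • y - y ∈ S) (τ : GQ)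
    (hτ : τ ∈ P.inertiaSubgroupIn ℚ) (hj : ∃ j : ℤ, τ • z - z - j • y ∈ S) : τ • z - z ∈ S := by
  have hr : r.Prime := Fact.out
  haveI : NeZero (r ^ k) := ⟨pow_ne_zero _ hr.ne_zero⟩
  haveI : Fact (1 < r ^ k) := ⟨Nat.one_lt_pow hk hr.one_lt⟩
  obtain ⟨B, hB, hadd, hinj, hgood⟩ := kum_good k G z hGst hzG HO U P hP
  obtain ⟨j, hj⟩ := hj
  have key : kact (r ^ k) G z hGst hzG τ ((0 : ↥G), (1 : ZMod (r ^ k))) -
      ((0 : ↥G), (1 : ZMod (r ^ k))) ∈ lift0 (r ^ k) G S := by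
    refine step_triv hr hr2 hP hB le_top (fun σ _ => hadd σ) hgood (lift0 (r ^ k) G S) ?_
      (y := ((⟨y, hyG⟩ : ↥G), (0 : ZMod (r ^ k)))) ?_ ?_ hτ ⟨j, ?_⟩
    · intro σ _ v hv
      obtain ⟨hv1, hv2⟩ := mem_lift0.1 hv
      refine mem_lift0.2 ⟨?_, hv2⟩
      show σ • (v.1 : J) + v.2.val • (σ • z - z) ∈ S
      rw [hv2, ZMod.val_zero, zero_nsmul, add_zero]
      exact hS σ _ hv1
    · exact mem_lift0.2 ⟨hry, smul_zero r⟩
    · intro σ hσ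
      have h := kact_sub_mem_lift0 (r ^ k) G z hGst hzG S σ
        ((⟨y, hyG⟩ : ↥G), (0 : ZMod (r ^ k))) 0 rfl (by
          show σ • y + (0 : ZMod (r ^ k)).val • (σ • z - z) - y - ((0 : ↥G) : J) ∈ S
          rw [ZMod.val_zero, zero_nsmul, add_zero, ZeroMemClass.coe_zero, sub_zero]
          exact hy σ hσ)
      rw [sub_zero] at h
      exact h
    · refine kact_sub_mem_lift0 (r ^ k) G z hGst hzG S τ ((0 : ↥G), (1 : ZMod (r ^ k)))
        (j • ((⟨y, hyG⟩ : ↥G), (0 : ZMod (r ^ k)))) (smul_zero j) ?_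
      show τ • ((0 : ↥G) : J) + (1 : ZMod (r ^ k)).val • (τ • z - z) - ((0 : ↥G) : J) - j • y ∈ S
      rw [ZeroMemClass.coe_zero, smul_zero, zero_add, sub_zero, ZMod.val_one, one_nsmul]
      exact hj
  have h1 := (mem_lift0.1 key).1
  rw [kact_sub_fst] at h1
  have e : τ • (((0 : ↥G), (1 : ZMod (r ^ k))).1 : J) +
      ((0 : ↥G), (1 : ZMod (r ^ k))).2.val • (τ • z - z) -
      (((0 : ↥G), (1 : ZMod (r ^ k))).1 : J) = τ • z - z := by
    show τ • ((0 : ↥G) : J) + (1 : ZMod (r ^ k)).val • (τ • z - z) - ((0 : ↥G) : J) = τ • z - z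
    rw [ZeroMemClass.coe_zero, smul_zero, zero_add, sub_zero, ZMod.val_one, one_nsmul]
  rw [e] at h1
  exact h1

/-- **(L3-MU), Kummer form, valuations.** Any `r`.  If `τ z - z ≡ a(τ) y` modulo `S` for `τ` in
the inertia group at `P | r`, and `θ ≠ 0` satisfies `τ θ = ζ ^ a(τ) θ` there, then the valuation
of `θ` is that of a power of `r`. -/
theorem kum_valuation (hk : k ≠ 0) (HO : HasHopfOrder r (kact (r ^ k) G z hGst hzG))
    (U : ∀ S : AddSubgroup J, S ≤ G → (∀ (γ : GQ) (x : J), x ∈ S → γ • x ∈ S) → S ≠ G →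
      ∃ y ∈ G, y ∉ S ∧ r • y ∈ S ∧ ∀ γ : GQ, ∃ m : ℤ, γ • y - m • y ∈ S)
    (S : AddSubgroup J) (y : J) (hyG : y ∈ G) (hyS : y ∉ S) (hry : r • y ∈ S)
    (P : ValuationSubring Qb) (hP : P.LiesOverPrime r) {ζ : Qb} (hζ : IsPrimitiveRoot ζ r)
    (a : GQ → ZMod r) (ha : ∀ τ ∈ P.inertiaSubgroupIn ℚ, τ • z - z - (a τ).val • y ∈ S)
    (θ : Qb) (hθ0 : θ ≠ 0) (hθ : ∀ τ ∈ P.inertiaSubgroupIn ℚ, τ θ = ζ ^ (a τ).val * θ) :
    ∃ n : ℤ, P.valuation θ = P.valuation ((r : Qb) ^ n) := by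
  have hr : r.Prime := Fact.out
  haveI : NeZero (r ^ k) := ⟨pow_ne_zero _ hr.ne_zero⟩
  haveI : Fact (1 < r ^ k) := ⟨Nat.one_lt_pow hk hr.one_lt⟩
  obtain ⟨B, hB, hadd, hinj, hgood⟩ := kum_good k G z hGst hzG HO U P hP
  -- a character trivial on `S × 0` with value `ζ` at `(y, 0)`
  have hy'S : ((⟨y, hyG⟩ : ↥G), (0 : ZMod (r ^ k))) ∉ lift0 (r ^ k) G S := fun h =>
    hyS (mem_lift0.1 h).1
  have hry' : r • ((⟨y, hyG⟩ : ↥G), (0 : ZMod (r ^ k))) ∈ lift0 (r ^ k) G S :=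
    mem_lift0.2 ⟨hry, smul_zero r⟩
  have hne : (QuotientAddGroup.mk ((⟨y, hyG⟩ : ↥G), (0 : ZMod (r ^ k))) :
      (↥G × ZMod (r ^ k)) ⧸ lift0 (r ^ k) G S) ≠ 0 := fun h =>
    hy'S ((QuotientAddGroup.eq_zero_iff _).1 h)
  obtain ⟨ψ₀, hψ₀⟩ := exists_addChar_ne_one hne
  have hpow : ψ₀ (QuotientAddGroup.mk ((⟨y, hyG⟩ : ↥G), (0 : ZMod (r ^ k)))) ^ r = 1 := by
    rw [← AddChar.map_nsmul_eq_pow, ← QuotientAddGroup.mk_nsmul,
      (QuotientAddGroup.eq_zero_iff _).2 hry', AddChar.map_zero_eq_one]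
  have hprim : IsPrimitiveRoot
      (ψ₀ (QuotientAddGroup.mk ((⟨y, hyG⟩ : ↥G), (0 : ZMod (r ^ k))))) r := by
    have h := orderOf_eq_prime hpow hψ₀
    have h' := IsPrimitiveRoot.orderOf
      (ψ₀ (QuotientAddGroup.mk ((⟨y, hyG⟩ : ↥G), (0 : ZMod (r ^ k)))))
    rwa [h] at h'
  obtain ⟨t, -, ht⟩ := hprim.eq_pow_of_pow_eq_one hζ.pow_eq_one
  obtain ⟨ψ, hψ⟩ : ∃ ψ : AddChar (↥G × ZMod (r ^ k)) Qb, ∀ v, ψ v =
      ψ₀ (QuotientAddGroup.mk v) ^ t :=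
    ⟨ψ₀.compAddMonoidHom ((QuotientAddGroup.mk' (lift0 (r ^ k) G S)).comp
      (nsmulAddMonoidHom t)), fun v => by
        show ψ₀ (QuotientAddGroup.mk (t • v)) = _
        rw [QuotientAddGroup.mk_nsmul, AddChar.map_nsmul_eq_pow]⟩
  have hψS : ∀ s ∈ lift0 (r ^ k) G S, ψ s = 1 := by
    intro s hs
    rw [hψ, (QuotientAddGroup.eq_zero_iff s).2 hs, AddChar.map_zero_eq_one, one_pow]
  have hψy : ψ ((⟨y, hyG⟩ : ↥G), (0 : ZMod (r ^ k))) = ζ := by rw [hψ, ht]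
  -- the unit
  obtain ⟨β, hβP, hβu, hβ⟩ := exists_unit_kummer hB le_top (fun σ _ => hadd σ)
    (fun σ _ => hinj σ) hgood ψ ((0 : ↥G), (1 : ZMod (r ^ k)))
  have hβ0 : β ≠ 0 := fun h => hβu (by rw [h]; exact nonunits_zero_mem P)
  have hfix : ∀ σ ∈ P.inertiaSubgroupIn ℚ, σ (θ / β) = θ / β := by
    intro σ hσ
    have h1 : ψ (kact (r ^ k) G z hGst hzG σ ((0 : ↥G), (1 : ZMod (r ^ k))) -
        ((0 : ↥G), (1 : ZMod (r ^ k)))) = ζ ^ (a σ).val := by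
      have hs : kact (r ^ k) G z hGst hzG σ ((0 : ↥G), (1 : ZMod (r ^ k))) -
          ((0 : ↥G), (1 : ZMod (r ^ k))) -
          (a σ).val • ((⟨y, hyG⟩ : ↥G), (0 : ZMod (r ^ k))) ∈ lift0 (r ^ k) G S := by
        refine kact_sub_mem_lift0 (r ^ k) G z hGst hzG S σ ((0 : ↥G), (1 : ZMod (r ^ k)))
          ((a σ).val • ((⟨y, hyG⟩ : ↥G), (0 : ZMod (r ^ k))))
          (show (a σ).val • (0 : ZMod (r ^ k)) = 0 from smul_zero _) ?_
        show σ • ((0 : ↥G) : J) + (1 : ZMod (r ^ k)).val • (σ • z - z) - ((0 : ↥G) : J) -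
          (a σ).val • y ∈ S
        rw [ZeroMemClass.coe_zero, smul_zero, zero_add, sub_zero, ZMod.val_one, one_nsmul]
        exact ha σ hσ
      have e : kact (r ^ k) G z hGst hzG σ ((0 : ↥G), (1 : ZMod (r ^ k))) -
          ((0 : ↥G), (1 : ZMod (r ^ k))) =
          (kact (r ^ k) G z hGst hzG σ ((0 : ↥G), (1 : ZMod (r ^ k))) -
            ((0 : ↥G), (1 : ZMod (r ^ k))) -
            (a σ).val • ((⟨y, hyG⟩ : ↥G), (0 : ZMod (r ^ k)))) +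
          (a σ).val • ((⟨y, hyG⟩ : ↥G), (0 : ZMod (r ^ k))) := by abel
      rw [e, AddChar.map_add_eq_mul, hψS _ hs, one_mul, AddChar.map_nsmul_eq_pow, hψy]
    have hζ0 : ζ ^ (a σ).val ≠ 0 := pow_ne_zero _ (hζ.ne_zero hr.ne_zero)
    rw [map_div₀, hβ σ hσ, hθ σ hσ, h1, mul_div_mul_left _ _ hζ0]
  obtain ⟨n, hn⟩ := exists_zpow_valuation_eq_of_inertia_fixed hr P hP hfix
    (div_ne_zero hθ0 hβ0)
  refine ⟨n, ?_⟩
  have hvβ : P.valuation β = 1 := by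
    have h1 : P.valuation β ≤ 1 := (P.valuation_le_one_iff β).2 hβP
    have h2 : ¬ P.valuation β < 1 := fun h => hβu (P.mem_nonunits_iff.2 h)
    exact le_antisymm h1 (not_lt.mp h2)
  rw [map_div₀, hvβ, div_one] at hn
  exact hn

/-- **(L3-MU), Kummer form.** Any `r`.  If `g z - z ≡ a(g) y` modulo `S` for all `g`, and
`θ ^ r = u ∈ ℚ^×` with `g θ = ζ ^ a(g) θ`, then `r ∣ v_r(u)`: the class of `u` is a unit class
at `r`. -/
theorem kum_dvd_padicValRat (hk : k ≠ 0) (HO : HasHopfOrder r (kact (r ^ k) G z hGst hzG))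
    (U : ∀ S : AddSubgroup J, S ≤ G → (∀ (γ : GQ) (x : J), x ∈ S → γ • x ∈ S) → S ≠ G →
      ∃ y ∈ G, y ∉ S ∧ r • y ∈ S ∧ ∀ γ : GQ, ∃ m : ℤ, γ • y - m • y ∈ S)
    (S : AddSubgroup J) (y : J) (hyG : y ∈ G) (hyS : y ∉ S) (hry : r • y ∈ S)
    {ζ : Qb} (hζ : IsPrimitiveRoot ζ r) (a : GQ → ZMod r)
    (ha : ∀ g : GQ, g • z - z - (a g).val • y ∈ S) (u : ℚ) (θ : Qb) (hu : u ≠ 0)
    (hθ : θ ^ r = (u : Qb)) (hθa : ∀ g : GQ, g θ = ζ ^ (a g).val * θ) :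
    (r : ℤ) ∣ padicValRat r u := by
  have hr : r.Prime := Fact.out
  obtain ⟨P, hP⟩ := Fermat.Agent.Lib.FrobeniusExists.exists_liesOverPrime hr
  have hθ0 : θ ≠ 0 := by
    rintro rfl
    rw [zero_pow hr.ne_zero] at hθ
    exact hu (Rat.cast_eq_zero.mp hθ.symm)
  obtain ⟨n, hn⟩ := kum_valuation k G z hGst hzG hk HO U S y hyG hyS hry P hP hζ a
    (fun τ _ => ha τ) θ hθ0 (fun τ _ => hθa τ)
  have hr0 : (r : Qb) ≠ 0 := Nat.cast_ne_zero.mpr hr.ne_zero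
  have hvr0 : P.valuation (r : Qb) ≠ 0 := (Valuation.ne_zero_iff _).2 hr0
  have hvr1 : P.valuation (r : Qb) < 1 := P.mem_nonunits_iff.mp hP
  have h1 : P.valuation ((u : ℚ) : Qb) = P.valuation (r : Qb) ^ padicValRat r u := by
    have h := Fermat.Agent.PT.G.LocNorm.valuation_ratCast_eq_zpow hr P hP hu
    rwa [eq_ratCast] at h
  have h2 : P.valuation ((u : ℚ) : Qb) = P.valuation (r : Qb) ^ (n * (r : ℤ)) := by
    rw [← hθ, map_pow, hn, map_zpow₀, zpow_mul, zpow_natCast]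
  have h3 : padicValRat r u = n * (r : ℤ) := zpow_inj_of_lt_one hvr0 hvr1 (h1.symm.trans h2)
  exact ⟨n, by rw [h3, mul_comm]⟩

end main

end

end Fermat.Agent.S15P.Loc65.KumAbs
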