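/-
S15 (row L3-ODD), the seam from the local statements to the characters (L4), concrete side:
`J = JZero N`, `r ∤ N` a prime, `G ≤ J₀(N)[r^k]` a finite Galois-stable subgroup with step vectors
(`U`), `z` a point with `r^k z` rational and `γ z - z ∈ G`.  The Hopf order on `G × ℤ/r^k` is the
restriction of the Hopf order on the Kummer group of `z` (`S15P/Ord/KumMain15`).

* `inertia_sub_mem_of_triv_step` : (L3-Z) `r` odd; over a step `y` fixed modulo `S` by the inertia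
  group at `P | r`, `τ z - z ∈ ℤ y + S` implies `τ z - z ∈ S` for `τ` in that inertia group;
* `valuation_eq_zpow_of_step` : (L3-MU) any `r`; a Kummer generator `θ` of the step cocycle on
  the inertia group at `P | r` has the valuation of a power of `r`;
* `dvd_padicValRat_of_step` : (L3-MU) any `r`; if `θ ^ r = u ∈ ℚ^×` and `g θ = ζ ^ a(g) θ` for the
  step cocycle `a`, then `r ∣ v_r(u)`.
-/
import Mathlib
import Fermat.Agent.S15P.Loc65.KumAbs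
import Fermat.Agent.S15P.Ord.KumMain15

set_option autoImplicit false
set_option linter.style.haveILetI false
set_option linter.unusedSectionVars false

namespace Fermat.Agent.S15P.Loc65.KumLocal

open ModularCurve Fermat.Agent.Lib.FinFlat Fermat.Agent.S15P.Loc65.KumAbs

local notation "Qb" => AlgebraicClosure ℚ
local notation "GQ" => (AlgebraicClosure ℚ ≃ₐ[ℚ] AlgebraicClosure ℚ)

section

set_option synthInstance.maxHeartbeats 400000

variable (N r : ℕ) [NeZero N] [Fact r.Prime]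

/-- **The Hopf order on `G × ℤ/r^k`**, by restriction from the Kummer group of `z`. -/
theorem hasHopfOrder_kact (hrN : ¬ r ∣ N) (k : ℕ) (G : AddSubgroup (JZero N))
    (hGk : ∀ g ∈ G, r ^ k • g = 0) (hGst : ∀ (γ : GQ), ∀ g ∈ G, γ • g ∈ G) (z : JZero N)
    (hz : ∀ γ : GQ, γ • (r ^ k • z) = r ^ k • z) (hzG : ∀ γ : GQ, γ • z - z ∈ G) :
    HasHopfOrder r (kact (r ^ k) G z hGst hzG) := by
  have h := Fermat.Agent.S15P.Ord15.hasHopfOrder_kummer N r hrN k z hz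
  let ι₁ : ↥G →+ ↥(Submodule.torsionBy ℤ (JZero N) ((r ^ k : ℕ) : ℤ)) :=
    { toFun := fun g => ⟨(g : JZero N), by
        rw [Submodule.mem_torsionBy_iff, natCast_zsmul]
        exact hGk g g.2⟩
      map_zero' := rfl
      map_add' := fun _ _ => rfl }
  refine h.of_injective (ι₁.prodMap (AddMonoidHom.id (ZMod (r ^ k)))) ?_ ?_
  · rintro ⟨g, a⟩ ⟨g', a'⟩ hgg
    have h1 : ι₁ g = ι₁ g' := congrArg Prod.fst hgg
    have h2 : a = a' := congrArg Prod.snd hgg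
    have h3 : (g : JZero N) = (g' : JZero N) :=
      congrArg (fun t : ↥(Submodule.torsionBy ℤ (JZero N) ((r ^ k : ℕ) : ℤ)) => (t : JZero N)) h1
    exact Prod.ext (Subtype.ext h3) h2
  · intro σ w
    rfl

/-- **(L3-Z)** `r` odd.  Over a step `y` which is fixed modulo `S` by the inertia group at
`P | r`: if `τ` is in that inertia group and `τ z - z ∈ ℤ y + S`, then `τ z - z ∈ S`. -/
theorem inertia_sub_mem_of_triv_step (hr2 : r ≠ 2) (hrN : ¬ r ∣ N) (k : ℕ) (hk : k ≠ 0)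
    (G : AddSubgroup (JZero N)) [Finite G] (hGk : ∀ g ∈ G, r ^ k • g = 0)
    (hGst : ∀ (γ : GQ), ∀ g ∈ G, γ • g ∈ G)
    (U : ∀ S : AddSubgroup (JZero N), S ≤ G → (∀ (γ : GQ) (x : JZero N), x ∈ S → γ • x ∈ S) →
      S ≠ G → ∃ y ∈ G, y ∉ S ∧ r • y ∈ S ∧ ∀ γ : GQ, ∃ m : ℤ, γ • y - m • y ∈ S)
    (z : JZero N) (hz : ∀ γ : GQ, γ • (r ^ k • z) = r ^ k • z) (hzG : ∀ γ : GQ, γ • z - z ∈ G)
    (S : AddSubgroup (JZero N)) (hS : ∀ (γ : GQ) (x : JZero N), x ∈ S → γ • x ∈ S)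
    (y : JZero N) (hyG : y ∈ G) (hry : r • y ∈ S) (P : ValuationSubring Qb)
    (hP : P.LiesOverPrime r) (hy : ∀ τ ∈ P.inertiaSubgroupIn ℚ, τ • y - y ∈ S) (τ : GQ)
    (hτ : τ ∈ P.inertiaSubgroupIn ℚ) (hj : ∃ j : ℤ, τ • z - z - j • y ∈ S) : τ • z - z ∈ S :=
  kum_triv_step k G z hGst hzG hr2 hk (hasHopfOrder_kact N r hrN k G hGk hGst z hz hzG) U S hS y
    hyG hry P hP hy τ hτ hj

/-- **(L3-MU), valuations.** Any `r`.  If `τ z - z ≡ a(τ) y` modulo `S` for `τ` in the inertia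
group at `P | r`, and `θ ≠ 0` satisfies `τ θ = ζ ^ a(τ) θ` there, then the valuation of `θ` is
that of a power of `r`. -/
theorem valuation_eq_zpow_of_step (hrN : ¬ r ∣ N) (k : ℕ) (hk : k ≠ 0)
    (G : AddSubgroup (JZero N)) [Finite G] (hGk : ∀ g ∈ G, r ^ k • g = 0)
    (hGst : ∀ (γ : GQ), ∀ g ∈ G, γ • g ∈ G)
    (U : ∀ S : AddSubgroup (JZero N), S ≤ G → (∀ (γ : GQ) (x : JZero N), x ∈ S → γ • x ∈ S) →
      S ≠ G → ∃ y ∈ G, y ∉ S ∧ r • y ∈ S ∧ ∀ γ : GQ, ∃ m : ℤ, γ • y - m • y ∈ S)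
    (z : JZero N) (hz : ∀ γ : GQ, γ • (r ^ k • z) = r ^ k • z) (hzG : ∀ γ : GQ, γ • z - z ∈ G)
    (S : AddSubgroup (JZero N)) (y : JZero N) (hyG : y ∈ G) (hyS : y ∉ S) (hry : r • y ∈ S)
    (P : ValuationSubring Qb) (hP : P.LiesOverPrime r) {ζ : Qb} (hζ : IsPrimitiveRoot ζ r)
    (a : GQ → ZMod r) (ha : ∀ τ ∈ P.inertiaSubgroupIn ℚ, τ • z - z - (a τ).val • y ∈ S)
    (θ : Qb) (hθ0 : θ ≠ 0) (hθ : ∀ τ ∈ P.inertiaSubgroupIn ℚ, τ θ = ζ ^ (a τ).val * θ) :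
    ∃ n : ℤ, P.valuation θ = P.valuation ((r : Qb) ^ n) :=
  kum_valuation k G z hGst hzG hk (hasHopfOrder_kact N r hrN k G hGk hGst z hz hzG) U S y hyG hyS
    hry P hP hζ a ha θ hθ0 hθ

/-- **(L3-MU).** Any `r`.  If `g z - z ≡ a(g) y` modulo `S` for all `g`, and `θ ^ r = u ∈ ℚ^×`
with `g θ = ζ ^ a(g) θ`, then `r ∣ v_r(u)`. -/
theorem dvd_padicValRat_of_step (hrN : ¬ r ∣ N) (k : ℕ) (hk : k ≠ 0)
    (G : AddSubgroup (JZero N)) [Finite G] (hGk : ∀ g ∈ G, r ^ k • g = 0)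
    (hGst : ∀ (γ : GQ), ∀ g ∈ G, γ • g ∈ G)
    (U : ∀ S : AddSubgroup (JZero N), S ≤ G → (∀ (γ : GQ) (x : JZero N), x ∈ S → γ • x ∈ S) →
      S ≠ G → ∃ y ∈ G, y ∉ S ∧ r • y ∈ S ∧ ∀ γ : GQ, ∃ m : ℤ, γ • y - m • y ∈ S)
    (z : JZero N) (hz : ∀ γ : GQ, γ • (r ^ k • z) = r ^ k • z) (hzG : ∀ γ : GQ, γ • z - z ∈ G)
    (S : AddSubgroup (JZero N)) (y : JZero N) (hyG : y ∈ G) (hyS : y ∉ S) (hry : r • y ∈ S)
    {ζ : Qb} (hζ : IsPrimitiveRoot ζ r) (a : GQ → ZMod r)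
    (ha : ∀ g : GQ, g • z - z - (a g).val • y ∈ S) (u : ℚ) (θ : Qb) (hu : u ≠ 0)
    (hθ : θ ^ r = (u : Qb)) (hθa : ∀ g : GQ, g θ = ζ ^ (a g).val * θ) :
    (r : ℤ) ∣ padicValRat r u :=
  kum_dvd_padicValRat k G z hGst hzG hk (hasHopfOrder_kact N r hrN k G hGk hGst z hz hzG) U S y
    hyG hyS hry hζ a ha u θ hu hθ hθa

end

end Fermat.Agent.S15P.Loc65.KumLocal
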